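/-
S16 (U)-P-NORM (helper54): pure power-series algebra for the `l = p` case of the upper bound.

For a prime `p`, a power series `g` with constant term `1` and a power series `A ≡ ε mod p`
(`ε` a constant): the series `A ^ a - ε ^ a * g ^ p` has all coefficients of index `< p` divisible
by `p`, and its `p`-th coefficient is `≡ - ε ^ a * (coeff 1 g) ^ p mod p`.
Mathlib only.
-/
import Mathlib

set_option autoImplicit false

namespace Fermat.Agent.S16.UpNorm54

open PowerSeries

section Algebra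

variable {R : Type*} [CommRing R]

/-- `g = 1 + X * shift g` for a power series with constant coefficient `1`. -/
lemma eq_one_add_X_mul_shift (g : R⟦X⟧) (hg : constantCoeff g = 1) :
    g = 1 + X * PowerSeries.mk fun n => coeff (n + 1) g := by
  have h := PowerSeries.eq_X_mul_shift_add_const g
  rw [hg, map_one] at h
  rw [add_comm]
  exact h

/-- Freshman's dream for power series with constant coefficient `1`. -/
lemma exists_pow_prime_eq {p : ℕ} (hp : p.Prime) (g : R⟦X⟧) (hg : constantCoeff g = 1) :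
    ∃ r : R⟦X⟧, g ^ p
      = 1 + X ^ p * (PowerSeries.mk fun n => coeff (n + 1) g) ^ p + C (p : R) * r := by
  set y : R⟦X⟧ := PowerSeries.mk fun n => coeff (n + 1) g with hy
  obtain ⟨r, hr⟩ := exists_add_pow_prime_eq hp (1 : R⟦X⟧) (X * y)
  refine ⟨X * y * r, ?_⟩
  have h1 : g = 1 + X * y := eq_one_add_X_mul_shift g hg
  rw [h1, hr, one_pow, mul_pow, map_natCast]
  ring

/-- `(x + p b) ^ a = x ^ a + p c`. -/
lemma exists_add_mul_pow_eq (x b : R) (p : R) (a : ℕ) :
    ∃ c : R, (x + p * b) ^ a = x ^ a + p * c := by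
  obtain ⟨c, hc⟩ := sub_dvd_pow_sub_pow (x + p * b) x a
  refine ⟨b * c, ?_⟩
  have : (x + p * b) ^ a - x ^ a = p * (b * c) := by
    rw [hc]; ring
  linear_combination this

/-- **Key congruence.**  Let `A = C ε + p B` and `g = 1 + c₁ X + ⋯`.  Then
`Φ = A ^ a - ε ^ a * g ^ p` satisfies `coeff n Φ ∈ p R` for `n < p` and
`coeff p Φ ≡ - ε ^ a * c₁ ^ p mod p R`. -/
theorem coeff_key {p : ℕ} (hp : p.Prime) (a : ℕ) (ε : R) (A B g : R⟦X⟧)
    (hA : A = C ε + C (p : R) * B) (hg : constantCoeff g = 1) :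
    (∀ n, n < p → ∃ y : R, coeff n (A ^ a - C (ε ^ a) * g ^ p) = (p : R) * y) ∧
    ∃ y : R, coeff p (A ^ a - C (ε ^ a) * g ^ p) = - (ε ^ a * coeff 1 g ^ p) + (p : R) * y := by
  obtain ⟨r, hr⟩ := exists_pow_prime_eq hp g hg
  obtain ⟨B', hB'⟩ := exists_add_mul_pow_eq (C ε) B (C (p : R)) a
  set y : R⟦X⟧ := PowerSeries.mk fun n => coeff (n + 1) g with hy
  have hΦ : A ^ a - C (ε ^ a) * g ^ p
      = C (p : R) * (B' - C (ε ^ a) * r) - C (ε ^ a) * (X ^ p * y ^ p) := by
    rw [hA, hB', hr, map_pow]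
    ring
  have hcy : constantCoeff (y ^ p) = coeff 1 g ^ p := by
    rw [map_pow, ← coeff_zero_eq_constantCoeff_apply, hy, coeff_mk]
  constructor
  · intro n hn
    refine ⟨coeff n (B' - C (ε ^ a) * r), ?_⟩
    rw [hΦ, map_sub, coeff_C_mul, coeff_C_mul, coeff_X_pow_mul', if_neg (by omega)]
    ring
  · refine ⟨coeff p (B' - C (ε ^ a) * r), ?_⟩
    rw [hΦ, map_sub, coeff_C_mul, coeff_C_mul, coeff_X_pow_mul', if_pos le_rfl, Nat.sub_self,
      coeff_zero_eq_constantCoeff_apply, hcy]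
    ring

end Algebra

end Fermat.Agent.S16.UpNorm54
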