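/-
S16 (U)-P-NORM (helper54): level-one core of the `l = p` case of the upper bound.

A level-one modular form of weight `2p` (`p ≥ 5` prime) whose `q`-expansion has coefficients in a
subring `O ⊆ ℂ` with `p O ∩ ℤ = p ℤ` is never `≡ -1 mod p O`.

Proof: `Φ = F ^ 2 - E₄ ^ p` (weight `4p`) has `coeff n Φ ∈ p O` for `n < p` and
`coeff p Φ ≡ -240 ^ p mod p O`; the Sturm bound `4p / 12 < p` (SturmMod32) forces `p ∣ 240`.
For `p = 5` use `Φ = F ^ 3 + E₆ ^ 5` (weight `30`, `504` prime to `5`).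
-/
import Mathlib
import Fermat.Agent.S16.SturmMod32
import Fermat.Agent.S16.MillerSturm46
import Fermat.Agent.S16.UpNorm54.Alg

set_option autoImplicit false

namespace Fermat.Agent.S16.UpNorm54

open UpperHalfPlane ModularForm ModularFormClass MatrixGroups EisensteinSeries PowerSeries

/-- `map O.subtype ∘ map (Int.castRingHom O) = map (Int.castRingHom ℂ)`. -/
lemma map_subtype_map_intCast (O : Subring ℂ) (g : ℤ⟦X⟧) :
    (g.map (Int.castRingHom O)).map O.subtype = g.map (Int.castRingHom ℂ) := by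
  ext n
  simp

/-- **Generic core.**  `F` a level-one form whose `q`-expansion `A` has coefficients in `O` and is
`≡ -1 mod p O`; `M` a level-one form with integral `q`-expansion `g = 1 + c₁ q + ⋯`, `p ∤ c₁`;
weights `p * w = a * k` with Sturm bound `a k / 12 < p`.  Contradiction. -/
theorem core_aux (p : ℕ) (hp : p.Prime) (O : Subring ℂ)
    (hO : ∀ m : ℤ, (∃ y ∈ O, (m : ℂ) = (p : ℂ) * y) → (p : ℤ) ∣ m)
    {k : ℤ} (F : ModularForm 𝒮ℒ k) (A : PowerSeries O)
    (hA : ∀ n, ((coeff n A : O) : ℂ) = (qExpansion 1 F).coeff n)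
    (hred : ∀ n, ∃ y : O, coeff n A = (if n = 0 then -1 else 0) + (p : O) * y)
    (a : ℕ) {w : ℤ} (M : ModularForm 𝒮ℒ w) (g : ℤ⟦X⟧)
    (hM : qExpansion 1 M = g.map (Int.castRingHom ℂ)) (hg0 : constantCoeff g = 1)
    (hg1 : ¬ (p : ℤ) ∣ coeff 1 g) (hw : (p : ℤ) * w = (a : ℤ) * k)
    (hst : ((a : ℤ) * k).toNat / 12 < p) : False := by
  -- the series `B` with `A = -1 + p B`
  choose yB hyB using hred
  set B : PowerSeries O := PowerSeries.mk yB with hB
  have hAB : A = C (-1 : O) + C ((p : ℕ) : O) * B := by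
    ext n
    rw [hyB n, map_add, coeff_C_mul, hB, coeff_mk, coeff_C]
  set gO : PowerSeries O := g.map (Int.castRingHom O) with hgO
  have hgO0 : constantCoeff gO = 1 := by
    rw [hgO, ← coeff_zero_eq_constantCoeff_apply, coeff_map, coeff_zero_eq_constantCoeff_apply,
      hg0, map_one]
  obtain ⟨hlow, ytop, htop⟩ := coeff_key hp a (-1 : O) A B gO hAB hgO0
  -- the modular form `Φ`
  let Ψ : ModularForm 𝒮ℒ ((a : ℤ) * k) := ((-1 : ℂ) ^ a) • ModularForm.mcast hw (M.pow p)
  let Φ : ModularForm 𝒮ℒ ((a : ℤ) * k) := F.pow a - Ψ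
  have hΦ : qExpansion 1 Φ
      = (A ^ a - C ((-1 : O) ^ a) * gO ^ p).map O.subtype := by
    have h1 : qExpansion 1 F = A.map O.subtype := by
      ext n
      rw [coeff_map, ← hA n]
      rfl
    have h2 : qExpansion 1 (ModularForm.mcast hw (M.pow p)) = (gO ^ p).map O.subtype := by
      rw [ModularForm.qExpansion_mcast, ModularForm.qExpansion_pow one_pos
        one_mem_strictPeriods_SL, hM, map_pow, hgO, map_subtype_map_intCast]
    have h3 : qExpansion 1 Ψ = ((-1 : ℂ) ^ a) • (gO ^ p).map O.subtype := by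
      rw [← h2]
      exact ModularForm.qExpansion_smul (F := ModularForm 𝒮ℒ ((a : ℤ) * k)) one_pos
        one_mem_strictPeriods_SL ((-1 : ℂ) ^ a) (ModularForm.mcast hw (M.pow p))
    have h4 : qExpansion 1 Φ = qExpansion 1 (F.pow a) - qExpansion 1 Ψ :=
      ModularForm.qExpansion_sub one_pos one_mem_strictPeriods_SL (F.pow a) Ψ
    rw [h4, h3, ModularForm.qExpansion_pow one_pos one_mem_strictPeriods_SL, h1]
    rw [map_sub, map_mul, map_pow, PowerSeries.map_C, PowerSeries.smul_eq_C_mul]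
    congr 2
    simp
  -- Sturm
  have hall := SturmMod32.coeff_mem_mul_subring O (p : ℂ) Φ (fun n hn => by
    obtain ⟨y, hy⟩ := hlow n (lt_of_le_of_lt hn hst)
    refine ⟨(y : ℂ), y.2, ?_⟩
    rw [hΦ, coeff_map, hy]
    simp)
  obtain ⟨y', hy'O, hy'⟩ := hall p
  rw [hΦ, coeff_map, htop] at hy'
  have hint : (coeff 1 gO : O) = ((coeff 1 g : ℤ) : O) := by
    rw [hgO, coeff_map]; rfl
  rw [hint] at hy'
  -- an integer in `p O`
  have hdvd : (p : ℤ) ∣ -((-1) ^ a * coeff 1 g ^ p) := by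
    apply hO
    refine ⟨y' - (ytop : ℂ), O.sub_mem hy'O ytop.2, ?_⟩
    have : (((-((-1 : O) ^ a * ((coeff 1 g : ℤ) : O) ^ p) + ((p : ℕ) : O) * ytop : O)) : ℂ)
        = -((-1 : ℂ) ^ a * ((coeff 1 g : ℤ) : ℂ) ^ p) + (p : ℂ) * (ytop : ℂ) := by
      push_cast
      rfl
    have hy'' : -((-1 : ℂ) ^ a * ((coeff 1 g : ℤ) : ℂ) ^ p) + (p : ℂ) * (ytop : ℂ)
        = (p : ℂ) * y' := by
      rw [← this]
      exact hy'
    push_cast
    linear_combination hy''
  have hdvd2 : (p : ℤ) ∣ coeff 1 g ^ p := by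
    have h3 : (p : ℤ) ∣ (-1) ^ a * coeff 1 g ^ p := (dvd_neg).mp hdvd
    rcases neg_one_pow_eq_or ℤ a with h | h
    · rw [h, one_mul] at h3; exact h3
    · rw [h, neg_one_mul] at h3; exact (dvd_neg).mp h3
  exact hg1 (Int.Prime.dvd_pow' hp hdvd2)

lemma coeff_one_eisenstein4 : coeff 1 ModularCurve.eisenstein4 = 240 := by
  simp [ModularCurve.eisenstein4]

lemma coeff_one_eisenstein6 : coeff 1 MillerSturm46.eisenstein6 = -504 := by
  simp [MillerSturm46.eisenstein6]

/-- **Level-one core of `l = p`.**  No level-one form of weight `2p` (`p ≥ 5` prime) with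
`q`-expansion in `O⟦q⟧` is `≡ -1 mod p O` (when `p O ∩ ℤ = p ℤ`). -/
theorem core (p : ℕ) (hp : p.Prime) (hp5 : 5 ≤ p) (O : Subring ℂ)
    (hO : ∀ m : ℤ, (∃ y ∈ O, (m : ℂ) = (p : ℂ) * y) → (p : ℤ) ∣ m)
    {k : ℤ} (hk : k = 2 * (p : ℤ)) (F : ModularForm 𝒮ℒ k) (A : PowerSeries O)
    (hA : ∀ n, ((coeff n A : O) : ℂ) = (qExpansion 1 F).coeff n)
    (hred : ∀ n, ∃ y : O, coeff n A = (if n = 0 then -1 else 0) + (p : O) * y) : False := by
  by_cases h5 : p = 5
  · -- `p = 5`: use `E₆`, `a = 3`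
    refine core_aux p hp O hO F A hA hred 3 E₆ MillerSturm46.eisenstein6
      MillerSturm46.qExpansion_E6_eq MillerSturm46.constantCoeff_eisenstein6 ?_ ?_ ?_
    · rw [coeff_one_eisenstein6, h5]; decide
    · rw [hk, h5]; norm_num
    · rw [hk, h5]; decide
  · -- `p ≥ 7`: use `E₄`, `a = 2`
    have hp7 : 7 ≤ p := by
      rcases Nat.lt_or_ge p 7 with h | h
      · exfalso
        have : p = 6 := by omega
        rw [this] at hp
        exact absurd hp (by decide)
      · exact h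
    refine core_aux p hp O hO F A hA hred 2 E₄ ModularCurve.eisenstein4
      MillerSturm46.qExpansion_E4_eq ModularCurve.constantCoeff_eisenstein4 ?_ ?_ ?_
    · rw [coeff_one_eisenstein4]
      intro hdvd
      have h1 : p ∣ 240 := by exact_mod_cast hdvd
      have h2 : (240 : ℕ) = 2 ^ 4 * 3 * 5 := by norm_num
      rw [h2] at h1
      rcases (Nat.Prime.dvd_mul hp).mp h1 with h | h
      · rcases (Nat.Prime.dvd_mul hp).mp h with h | h
        · have := Nat.le_of_dvd (by norm_num) (hp.dvd_of_dvd_pow h); omega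
        · have := Nat.le_of_dvd (by norm_num) h; omega
      · have := Nat.le_of_dvd (by norm_num) h; omega
    · rw [hk]; push_cast; ring
    · rw [hk]
      have : ((2 : ℕ) : ℤ) * (2 * (p : ℤ)) = ((4 * p : ℕ) : ℤ) := by push_cast; ring
      rw [this, Int.toNat_natCast]
      omega

end Fermat.Agent.S16.UpNorm54
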