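/-
S16 (U)-P-NORM (helper54): from a form `f ∈ M₂(Γ₀(p))` with `a_n(f) = p g_n`, `g_n ∈ ℤ`,
`g_0 ≡ 1`, `g_{pn} ≡ 0 mod p` (`n ≥ 1`) to a level-one form of weight `2p` which is `≡ -1 mod p`.

The `p + 1` conjugates of `f` have integral expansions in `q^(1/p)`:
`f` itself is `≡ 0 mod p`, and `f ∣ S T^j = -∑ g_{pm} ζ^{jm} q^{m/p} ≡ -1 mod p`.  Hence the
`p`-th elementary symmetric function `e_p` (a level-one form of weight `2p`, `Esymm74`) is
`≡ e_p(0, -1, …, -1) = (-1)^p = -1 mod p`.
-/
import Mathlib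
import Fermat.Agent.S16.Esymm74
import Fermat.Agent.S16.Conj81.Trace
import Fermat.Agent.S16.Conj53.WeightTwo
import Fermat.Agent.S16.RingO87
import Fermat.Agent.S16.UpNorm54.Core

set_option autoImplicit false

namespace Fermat.Agent.S16.UpNorm54

open UpperHalfPlane ModularForm ModularFormClass MatrixGroups CongruenceSubgroup ModularGroup
  PowerSeries SlashInvariantForm
open Fermat.Agent.S24.HasQExp

section MultisetLemma

variable {R : Type*} [CommSemiring R]

/-- `e_n(0, x₁, …, x_n) = x₁ ⋯ x_n`. -/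
lemma esymm_zero_cons (s : Multiset R) :
    ((0 : R) ::ₘ s).esymm (Multiset.card s) = s.prod := by
  induction s using Multiset.induction_on with
  | empty => simp [Multiset.esymm]
  | cons a s _ =>
    have hc : Multiset.card (a ::ₘ s) = Multiset.card s + 1 := Multiset.card_cons a s
    rw [Multiset.esymm, hc, Multiset.powersetCard_cons, Multiset.map_add, Multiset.sum_add,
      Multiset.map_map]
    have h1 : (Multiset.map (Multiset.prod ∘ Multiset.cons (0 : R))
        (Multiset.powersetCard (Multiset.card s) (a ::ₘ s))).sum = 0 := by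
      apply Multiset.sum_eq_zero
      intro x hx
      obtain ⟨t, _, rfl⟩ := Multiset.mem_map.mp hx
      simp
    rw [h1, add_zero, ← hc, Multiset.powersetCard_self]
    simp

end MultisetLemma

variable {p : ℕ} [hp : Fact p.Prime]

/-- The root of unity `ζ_p` in the ring `O_p`. -/
noncomputable def zetaO (p : ℕ) [Fact p.Prime] : RingO87.ringO p :=
  ⟨Conj53.zeta p, by
    have : NeZero p := ⟨(Fact.out : p.Prime).ne_zero⟩
    exact RingO87.mem_of_pow_eq_one (Fact.out : p.Prime).pos Conj53.zeta_pow_p⟩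

/-- The `q^(1/p)`-expansions over `O_p` of the `p + 1` conjugates of `f` (`a_n(f) = p g_n`). -/
noncomputable def conjSer (p : ℕ) [Fact p.Prime] (g : ℕ → ℤ) :
    Option (Fin p) → PowerSeries (RingO87.ringO p)
  | none => PowerSeries.mk fun m => if p ∣ m then (((p : ℤ) * g (m / p) : ℤ) : RingO87.ringO p) else 0
  | some j => PowerSeries.mk fun m => ((-(g (p * m)) : ℤ) : RingO87.ringO p) * zetaO p ^ ((j : ℕ) * m)

/-- The expansion of `f` itself, in `q^(1/p)`. -/
lemma psum_conjSer_none (f : ModularForm (Gamma0 p) 2) (g : ℕ → ℤ)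
    (hf : ∀ n, (qExpansion 1 f).coeff n = (p : ℂ) * (g n : ℂ)) (τ : ℍ) :
    Fermat.Agent.S24.HasQExp.PSum ((conjSer p g none).map (RingO87.ringO p).subtype) (qN p τ)
      (quotientFunc f (Conj81.repEquiv p none) τ) := by
  rw [Conj81.repEquiv_none, Conj81.quotientFunc_one]
  unfold Fermat.Agent.S24.HasQExp.PSum
  have h1 := ModularForm.hasSum_qExpansion (h := 1) f one_pos (by simp) τ
  have hinj : Function.Injective (fun n : ℕ => p * n) :=
    fun a b h => Nat.eq_of_mul_eq_mul_left hp.out.pos h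
  have hzero : ∀ m ∉ Set.range (fun n : ℕ => p * n),
      coeff m ((conjSer p g none).map (RingO87.ringO p).subtype) * qN p τ ^ m = 0 := by
    intro m hm
    have hnd : ¬ p ∣ m := fun ⟨c, hc⟩ => hm ⟨c, hc.symm⟩
    simp [conjSer, hnd]
  rw [← hinj.hasSum_iff hzero]
  convert h1 using 1
  funext n
  simp only [Function.comp_apply, conjSer, coeff_map, coeff_mk, if_pos (dvd_mul_right p n),
    Nat.mul_div_cancel_left n hp.out.pos]
  have : NeZero p := ⟨hp.out.ne_zero⟩
  rw [hf n, pow_mul, qN, Conj53.qParam_p_pow_p]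
  simp

/-- The expansion of the conjugate `f ∣ S T^j`, in `q^(1/p)`. -/
lemma psum_conjSer_some (f : ModularForm (Gamma0 p) 2) (g : ℕ → ℤ)
    (hf : ∀ n, (qExpansion 1 f).coeff n = (p : ℂ) * (g n : ℂ)) (j : Fin p) (τ : ℍ) :
    Fermat.Agent.S24.HasQExp.PSum ((conjSer p g (some j)).map (RingO87.ringO p).subtype) (qN p τ)
      (quotientFunc f (Conj81.repEquiv p (some j)) τ) := by
  rw [Conj81.repEquiv_some, Conj81.quotientFunc_S_T]
  have h := Conj53.hasSum_tr_weight_two f ((j : ℕ) : ℤ) τ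
  rw [Conj53.tr_apply] at h
  unfold Fermat.Agent.S24.HasQExp.PSum
  convert h using 1
  · funext m
    have hp0 : (p : ℂ) ≠ 0 := by exact_mod_cast hp.out.ne_zero
    simp only [conjSer, coeff_map, coeff_mk, hf, zetaO, qN]
    simp only [Subring.subtype_apply, Subring.coe_mul, Subring.coe_pow, Subring.coe_intCast]
    rw [zpow_natCast, ← pow_mul]
    push_cast
    field_simp
  · simp [Conj53.gS]

/-- The ideal `p O_p`. -/
noncomputable def pIdeal (p : ℕ) [Fact p.Prime] : Ideal (RingO87.ringO p) :=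
  Ideal.span {((p : ℕ) : RingO87.ringO p)}

lemma map_conjSer_none (g : ℕ → ℤ) :
    (conjSer p g none).map (Ideal.Quotient.mk (pIdeal p)) = 0 := by
  ext m
  simp only [conjSer, coeff_map, coeff_mk, map_zero]
  split_ifs with h
  · rw [Ideal.Quotient.eq_zero_iff_mem]
    push_cast
    exact Ideal.mul_mem_right _ _ (Ideal.mem_span_singleton_self _)
  · exact map_zero _

lemma map_conjSer_some (g : ℕ → ℤ) (h0 : (p : ℤ) ∣ g 0 - 1)
    (hn : ∀ n, 1 ≤ n → (p : ℤ) ∣ g (p * n)) (j : Fin p) :
    (conjSer p g (some j)).map (Ideal.Quotient.mk (pIdeal p)) = -1 := by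
  have hpI : Ideal.Quotient.mk (pIdeal p) ((p : ℕ) : RingO87.ringO p) = 0 :=
    Ideal.Quotient.eq_zero_iff_mem.mpr (Ideal.mem_span_singleton_self _)
  ext m
  simp only [conjSer, coeff_map, coeff_mk, map_mul, map_pow, map_neg, coeff_one]
  rcases Nat.eq_zero_or_pos m with hm | hm
  · subst hm
    obtain ⟨c, hc⟩ := h0
    have hg : g (p * 0) = 1 + (p : ℤ) * c := by rw [Nat.mul_zero]; linarith
    rw [hg]
    push_cast
    rw [map_neg, map_add, map_mul, map_one, hpI]
    simp
  · obtain ⟨c, hc⟩ := hn m hm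
    rw [hc]
    push_cast
    rw [map_neg, map_mul, hpI]
    simp [hm.ne']

/-- **Reduction.**  For `f ∈ M₂(Γ₀(p))` (`p` an odd prime) with `a_n(f) = p g_n`, `g_0 ≡ 1`,
`g_{pn} ≡ 0 mod p` (`n ≥ 1`), the level-one form `e_p(f)` of weight `2p` has `q`-expansion in
`O_p⟦q⟧` which is `≡ -1 mod p O_p`. -/
theorem reduce (hodd : Odd p) (f : ModularForm (Gamma0 p) 2) (g : ℕ → ℤ)
    (hf : ∀ n, (qExpansion 1 f).coeff n = (p : ℂ) * (g n : ℂ))
    (h0 : (p : ℤ) ∣ g 0 - 1) (hn : ∀ n, 1 ≤ n → (p : ℤ) ∣ g (p * n)) :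
    ∃ A : PowerSeries (RingO87.ringO p),
      (∀ n, ((coeff n A : RingO87.ringO p) : ℂ)
        = (qExpansion 1 (Esymm74.esymmForm 𝒮ℒ f p)).coeff n) ∧
      ∀ n, ∃ y : RingO87.ringO p,
        coeff n A = (if n = 0 then -1 else 0) + ((p : ℕ) : RingO87.ringO p) * y := by
  obtain ⟨A, hA1, hA2⟩ := Esymm74.exists_qExpansion_reduction f (Conj81.repEquiv p) hp.out.pos
    (RingO87.ringO p) (conjSer p g)
    (fun i τ => by
      cases i with
      | none => exact psum_conjSer_none f g hf τ
      | some j => exact psum_conjSer_some f g hf j τ) p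
  refine ⟨A, hA1, fun n => ?_⟩
  have h1 := hA2 (Ideal.Quotient.mk (pIdeal p)) (p * n)
  rw [if_pos (dvd_mul_right p n), Nat.mul_div_cancel_left n hp.out.pos] at h1
  -- the multiset of reduced series
  have hms : ((Finset.univ : Finset (Option (Fin p))).val.map fun i =>
      (conjSer p g i).map (Ideal.Quotient.mk (pIdeal p)))
      = (0 : PowerSeries (RingO87.ringO p ⧸ pIdeal p)) ::ₘ
        ((Finset.univ : Finset (Fin p)).val.map fun _ => (-1 : PowerSeries (RingO87.ringO p ⧸ pIdeal p))) := by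
    rw [univ_option]
    simp only [Finset.insertNone, OrderEmbedding.coe_ofMapLEIff, Finset.cons_val, Finset.map_val,
      Multiset.map_cons, Multiset.map_map, map_conjSer_none]
    congr 1
    refine Multiset.map_congr rfl fun j _ => ?_
    exact map_conjSer_some g h0 hn j
  have hcard : Multiset.card ((Finset.univ : Finset (Fin p)).val.map
      fun _ => (-1 : PowerSeries (RingO87.ringO p ⧸ pIdeal p))) = p := by
    simp
  have hes : ((Finset.univ : Finset (Option (Fin p))).val.map fun i =>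
      (conjSer p g i).map (Ideal.Quotient.mk (pIdeal p))).esymm p = -1 := by
    rw [hms]
    have h3 := esymm_zero_cons ((Finset.univ : Finset (Fin p)).val.map
      fun _ => (-1 : PowerSeries (RingO87.ringO p ⧸ pIdeal p)))
    rw [hcard] at h3
    rw [h3]
    simp [hodd.neg_one_pow]
  rw [hes] at h1
  -- read off the coefficient
  have h2 : Ideal.Quotient.mk (pIdeal p) (coeff n A)
      = Ideal.Quotient.mk (pIdeal p) (if n = 0 then -1 else 0) := by
    rw [← h1]
    rcases Nat.eq_zero_or_pos n with hn0 | hn0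
    · subst hn0; simp
    · have : p * n ≠ 0 := Nat.mul_ne_zero hp.out.ne_zero hn0.ne'
      simp [hn0.ne', this]
  rw [Ideal.Quotient.eq, pIdeal, Ideal.mem_span_singleton'] at h2
  obtain ⟨y, hy⟩ := h2
  exact ⟨y, by linear_combination -hy⟩

end Fermat.Agent.S16.UpNorm54
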