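/-
S16 (U)-P-NORM (helper54): the `l = p` case of the upper bound, `UIface39.UpStmt`, from the
Eisenstein series (`UIface39.EisStmt`) — WITHOUT Serre's trick.

`f ∈ S₂(Γ₀(p))` integral with `a_k(f) ≡ σ'(k) mod p`.  `G := 24 f - E` has integer coefficients,
`a_0(G) = 1 - p`, `a_k(G) = 24 p c_k`.  The conjugates of `p G` are integral over `O_p`:
`p G ≡ 0` and `(p G) ∣ S T^j = -(U_p G)(ζ^j q^(1/p)) ≡ -1 mod p`.  So `e_p(p G)`, a level-one
form of weight `2p`, is `≡ -1 mod p O_p` (`Reduce`), which is impossible (`Core`).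
-/
import Mathlib
import Fermat.Agent.S16.UpNorm54.Reduce
import Fermat.Agent.S16.UAsm39

set_option autoImplicit false

namespace Fermat.Agent.S16.UpNorm54

open UpperHalfPlane ModularForm ModularFormClass MatrixGroups CongruenceSubgroup PowerSeries
open Fermat.Agent.S16.UIface39

/-- `p O_p ∩ ℤ = p ℤ`. -/
lemma int_dvd_of_mem_mul_ringO (p : ℕ) [Fact p.Prime] (m : ℤ)
    (h : ∃ y ∈ RingO87.ringO p, (m : ℂ) = (p : ℂ) * y) : (p : ℤ) ∣ m := by
  have h1 : (m : ℂ) ∈ RingO87.lPow p 1 := by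
    rw [RingO87.mem_lPow_iff]
    obtain ⟨y, hy, hmy⟩ := h
    exact ⟨y, hy, by rw [pow_one]; exact hmy⟩
  have h2 := RingO87.intCast_mem_lPow_iff.mp h1
  rwa [pow_one] at h2

/-- **`UpStmt` from `EisStmt`.** -/
theorem upStmt_of_eisStmt (hE : EisStmt) : UpStmt := by
  intro p hp hp5 f hint hcong
  have : Fact p.Prime := ⟨hp⟩
  obtain ⟨E, hE0, hEk⟩ := hE p hp
  choose! c hc using hcong
  -- the forms
  let G : ModularForm (Gamma0 p) 2 := (24 : ℂ) • UAsm39.toMF f - E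
  let f' : ModularForm (Gamma0 p) 2 := (p : ℂ) • G
  let g : ℕ → ℤ := fun n => if n = 0 then 1 - (p : ℤ) else 24 * (p : ℤ) * c n
  have hG : ∀ n, qCoeff (G : ℍ → ℂ) n = (g n : ℂ) := by
    intro n
    rw [UAsm39.qc_sub, UAsm39.qc_smul, UAsm39.coe_toMF]
    rcases Nat.eq_zero_or_pos n with h | h
    · subst h
      rw [UAsm39.qc_cusp_zero, hE0]
      simp [g]
    · rw [hc n h, hEk n h]
      simp only [g, if_neg h.ne']
      push_cast
      ring
  have hf' : ∀ n, (qExpansion 1 f').coeff n = (p : ℂ) * (g n : ℂ) := by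
    intro n
    have := UAsm39.qc_smul (p : ℂ) G n
    rw [hG n] at this
    exact this
  have hodd : Odd p := by
    rcases hp.eq_two_or_odd' with h | h
    · omega
    · exact h
  have h0 : (p : ℤ) ∣ g 0 - 1 := by
    simp only [g, if_pos rfl]
    exact ⟨-1, by ring⟩
  have hn : ∀ n, 1 ≤ n → (p : ℤ) ∣ g (p * n) := by
    intro n hn
    have : p * n ≠ 0 := Nat.mul_ne_zero hp.ne_zero (by omega)
    simp only [g, if_neg this]
    exact ⟨24 * c (p * n), by ring⟩
  obtain ⟨A, hA1, hA2⟩ := reduce hodd f' g hf' h0 hn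
  exact core p hp hp5 (RingO87.ringO p) (int_dvd_of_mem_mul_ringO p) (k := 2 * ((p : ℕ) : ℤ)) rfl
    (Esymm74.esymmForm 𝒮ℒ f' p) A hA1 hA2

end Fermat.Agent.S16.UpNorm54
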