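/-
S16 (U)-P-NORM (helper54): `UIface39.UpStmt` (the `l = p` case of the upper bound), unconditionally
(Eisenstein series from helper17's `Eis17`).
-/
import Fermat.Agent.S16.UpNorm54.Final
import Fermat.Agent.S16.Eis17.Iface39

set_option autoImplicit false

namespace Fermat.Agent.S16.UpNorm54

/-- **`UIface39.UpStmt`**: no integral cusp form of weight 2 and level `p ≥ 5` is congruent to the
Eisenstein series `∑ σ'_p(k) q^k` modulo `p`. -/
theorem upStmt : UIface39.UpStmt := upStmt_of_eisStmt Eis17.eisStmt

end Fermat.Agent.S16.UpNorm54
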